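import Fermat.Agent.S56.H384.ApproxAlg

/-!
# S56 / W2-SS piece A5 (helper384): an approximate point is close to an exact point

`exists_point_near` has VERBATIM the statement of
`Fermat.Agent.S56.H434.exists_point_near` (origin/helper434, `S56/H434/ApproxPoint.lean`).

Proof: in `A = Ω ⊗[R] H` (basis `1 ⊗ b i`, functional `φ = f.liftBaseChange Ω`) the elements with
`v`-integral coordinates form a subring on which `φ` is multiplicative up to `μ`; by
Cayley-Hamilton for multiplication by `a = ∑ c i • (1 ⊗ b i)` and the fact that the roots of its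
characteristic polynomial are the values `χ a` of characters (`= ∑ c i * x (b i)` for points `x`),
some point `x` has `v (∑ c i * (f (b i) - x (b i))) < γ`; the avoidance lemma `exists_avoid`
makes `x` independent of `c`.
-/

set_option autoImplicit false
set_option linter.style.haveILetI false

namespace Fermat.Agent.S56.H384

open TensorProduct

/-- An approximately multiplicative functional is close to a point. -/
theorem exists_point_near
    {Ω : Type*} [Field Ω] [IsAlgClosed Ω] {Γ : Type*} [LinearOrderedCommGroupWithZero Γ]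
    (v : Valuation Ω Γ) {R : Type*} [CommRing R] [Algebra R Ω]
    (hR : ∀ r : R, v (algebraMap R Ω r) ≤ 1)
    {H : Type*} [CommRing H] [Algebra R H] [Finite (H →ₐ[R] Ω)]
    {ι : Type*} [Fintype ι] (b : Module.Basis ι R H)
    (f : H →ₗ[R] Ω) {γ μ : Γ} (hγ : γ ≤ 1) (hμ : μ < γ ^ Fintype.card ι)
    (hf : ∀ i, v (f (b i)) ≤ 1)
    (hone : v (f 1 - 1) ≤ μ)
    (hmul : ∀ i j, v (f (b i * b j) - f (b i) * f (b j)) ≤ μ) :
    ∃ x : H →ₐ[R] Ω, ∀ i, v (f (b i) - x (b i)) ≤ γ := by
  classical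
  let B : Module.Basis ι Ω (Ω ⊗[R] H) := Algebra.TensorProduct.basis Ω b
  let φ : (Ω ⊗[R] H) →ₗ[Ω] Ω := f.liftBaseChange Ω
  haveI : Module.Finite Ω (Ω ⊗[R] H) := Module.Finite.of_basis B
  haveI : Module.Finite R H := Module.Finite.of_basis b
  have hBapp : ∀ i, B i = (1 : Ω) ⊗ₜ[R] b i := fun i => Algebra.TensorProduct.basis_apply b i
  have hφt : ∀ h : H, φ ((1 : Ω) ⊗ₜ[R] h) = f h := fun h => by
    simp [φ, LinearMap.liftBaseChange_tmul]
  have hIntT : ∀ h : H, IntC v B ((1 : Ω) ⊗ₜ[R] h) := fun h i => by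
    rw [Algebra.TensorProduct.basis_repr_tmul]
    simpa using hR _
  have h1 : IntC v B 1 := hIntT 1
  have hBmul : ∀ i j, IntC v B (B i * B j) := fun i j => by
    rw [hBapp, hBapp, Algebra.TensorProduct.tmul_mul_tmul, one_mul]
    exact hIntT _
  have hφB : ∀ i, v (φ (B i)) ≤ 1 := fun i => by
    rw [hBapp, hφt]
    exact hf i
  have hφ1 : v (φ 1 - 1) ≤ μ := by
    rw [Algebra.TensorProduct.one_def, hφt]
    exact hone
  have hφmul : ∀ i j, v (φ (B i * B j) - φ (B i) * φ (B j)) ≤ μ := fun i j => by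
    rw [hBapp, hBapp, Algebra.TensorProduct.tmul_mul_tmul, one_mul, hφt, hφt, hφt]
    exact hmul i j
  -- points from characters
  let pt : ((Ω ⊗[R] H) →ₐ[Ω] Ω) → (H →ₐ[R] Ω) := fun χ =>
    (χ.restrictScalars R).comp Algebra.TensorProduct.includeRight
  have hpt : ∀ χ i, pt χ (b i) = χ (B i) := fun χ i => by
    rw [hBapp]
    rfl
  have hint : ∀ (x : H →ₐ[R] Ω) (h : H), v (x h) ≤ 1 := fun x h =>
    val_le_one_of_isIntegral v hR ((IsIntegral.of_finite R h).map x)
  -- (5c): for integral `c` some point is `γ`-close in the direction `c`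
  have key : ∀ c : ι → Ω, (∀ i, v (c i) ≤ 1) →
      ∃ x : H →ₐ[R] Ω, v (∑ i, c i * (f (b i) - x (b i))) ≤ γ := by
    intro c hc
    set a : Ω ⊗[R] H := ∑ i, c i • B i with ha
    have hrepr : ∀ i, B.repr a i = c i := fun i => by
      rw [ha, B.repr_sum_self]
    have haInt : IntC v B a := fun i => by
      rw [hrepr]
      exact hc i
    have hχa : ∀ χ : (Ω ⊗[R] H) →ₐ[Ω] Ω, χ a = ∑ i, c i * pt χ (b i) := fun χ => by
      rw [ha, map_sum]
      refine Finset.sum_congr rfl fun i _ => ?_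
      rw [map_smul, smul_eq_mul, hpt]
    have hroots : ∀ lam ∈ (LinearMap.mulLeft Ω a).charpoly.roots, v lam ≤ 1 := by
      intro lam hlam
      obtain ⟨χ, hχ⟩ := exists_algHom_of_isRoot_charpoly a (Polynomial.isRoot_of_mem_roots hlam)
      rw [← hχ, hχa]
      refine v.map_sum_le fun i _ => ?_
      rw [map_mul]
      exact mul_le_one' (hc i) (hint _ _)
    obtain ⟨lam, hlam, hnear⟩ :=
      IntC.exists_root_near φ h1 hBmul hφB hφ1 hφmul hγ hμ haInt hroots
    obtain ⟨χ, hχ⟩ := exists_algHom_of_isRoot_charpoly a (Polynomial.isRoot_of_mem_roots hlam)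
    refine ⟨pt χ, ?_⟩
    have e : φ a - lam = ∑ i, c i * (f (b i) - pt χ (b i)) := by
      rw [← hχ, hχa, ha, map_sum, ← Finset.sum_sub_distrib]
      refine Finset.sum_congr rfl fun i _ => ?_
      rw [map_smul, smul_eq_mul, hBapp, hφt, mul_sub]
    rw [← e]
    exact hnear.le
  -- (5d): avoidance
  by_contra hcon
  push Not at hcon
  haveI := Fintype.ofFinite (H →ₐ[R] Ω)
  let ψ : (H →ₐ[R] Ω) → (ι → Ω) →ₗ[Ω] Ω := fun x =>
    ∑ i, (f (b i) - x (b i)) • (LinearMap.proj i : (ι → Ω) →ₗ[Ω] Ω)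
  have hψ : ∀ x c, ψ x c = ∑ i, c i * (f (b i) - x (b i)) := fun x c => by
    simp only [ψ, LinearMap.sum_apply, LinearMap.smul_apply, LinearMap.proj_apply, smul_eq_mul]
    exact Finset.sum_congr rfl fun i _ => mul_comm _ _
  obtain ⟨c, hcM, hc⟩ := exists_avoid v (fun c : ι → Ω => ∀ i, v (c i) ≤ 1)
    (fun i => by simp)
    (fun x y hx hy i => v.map_add_le (hx i) (hy i))
    (fun s x hs hx i => by
      rw [Pi.smul_apply, smul_eq_mul, map_mul]
      exact mul_le_one' hs (hx i))
    ψ γ Finset.univ (fun x _ => by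
      obtain ⟨i, hi⟩ := hcon x
      refine ⟨Pi.single i 1, fun j => ?_, ?_⟩
      · by_cases hji : j = i
        · subst hji
          simp
        · simp [Pi.single_eq_of_ne hji]
      · rw [hψ]
        simpa [Pi.single_apply] using hi)
  obtain ⟨x, hx⟩ := key c hcM
  rw [← hψ] at hx
  exact absurd (hc x (Finset.mem_univ _)) (not_lt.mpr hx)

end Fermat.Agent.S56.H384
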