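import Mathlib

/-!
# S56 / W-FLAT-SS, leaf RCShape (helper384): linear algebra and arithmetic of the orders

Mathlib-only tools for `FL.RCShapeStatement`:

* `exists_eigenbasis` : `t, f ∈ GL₂(k)` with `f t = t ^ p f`, split characteristic polynomials,
  `t` of order prime to the characteristic and no common stable line: in a suitable basis
  `t = diag(χ, χ')`, `f` is antidiagonal, `χ ≠ χ'`, `χ' = χ ^ p`, `χ = χ' ^ p`.
* `ad_coords` : the action of `Ad t`, `Ad f` in the coordinates `z₁₁, z₁₂, z₂₁`.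
* `order_arith` : `ord (x ^ (p + 1)) = p - 1` ⟹ `ord x = (p - 1) m`, `m = ord (x ^ (p - 1))`,
  `m ∣ p + 1`, `(p + 1) / m` odd.
-/

set_option autoImplicit false
set_option linter.unusedSectionVars false
set_option linter.style.haveILetI false

namespace Fermat.Agent.S56.H384

open Polynomial Module

section LA

variable {k V : Type*} [Field k] [AddCommGroup V] [Module k V] [Module.Finite k V]

/-- An endomorphism of finite order prime to the characteristic whose characteristic polynomial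
is `(X - χ)²` is the scalar `χ`. -/
theorem eq_smul_one_of_sq_of_pow {t : Module.End k V} {χ : k} {N : ℕ} (hN : (N : k) ≠ 0)
    (htN : t ^ N = 1) (hcp : LinearMap.charpoly t = (X - C χ) * (X - C χ)) : t = χ • 1 := by
  have h1 : minpoly k t ∣ (X - C χ) ^ 2 := by
    rw [pow_two, ← hcp]
    exact LinearMap.minpoly_dvd_charpoly t
  have h2 : minpoly k t ∣ X ^ N - C 1 := minpoly.dvd k t (by simp [htN])
  have hsq : Squarefree (minpoly k t) :=
    (separable_X_pow_sub_C (1 : k) hN one_ne_zero).squarefree.squarefree_of_dvd h2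
  have h3 : minpoly k t ∣ X - C χ :=
    (hsq.dvd_pow_iff_dvd two_ne_zero).mp h1
  have h4 : aeval t (X - C χ) = 0 := by
    obtain ⟨q, hq⟩ := h3
    rw [hq, map_mul, minpoly.aeval, zero_mul]
  have h5 : t - algebraMap k (Module.End k V) χ = 0 := by simpa using h4
  rw [sub_eq_zero] at h5
  rw [h5, Algebra.algebraMap_eq_smul_one]

theorem hasEigenvalue_of_charpoly {t : Module.End k V} {χ χ' : k}
    (hcp : LinearMap.charpoly t = (X - C χ) * (X - C χ')) :
    t.HasEigenvalue χ ∧ t.HasEigenvalue χ' := by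
  constructor <;> rw [Module.End.hasEigenvalue_iff_isRoot_charpoly, hcp] <;> simp [IsRoot]

/-- A line spanned by a nonzero vector in a plane is neither `⊥` nor `⊤`. -/
theorem span_singleton_ne (hV : finrank k V = 2) {v : V} (hv : v ≠ 0) :
    (k ∙ v) ≠ ⊥ ∧ (k ∙ v) ≠ ⊤ := by
  constructor
  · intro h
    exact hv ((Submodule.span_singleton_eq_bot).mp h)
  · intro h
    have h1 : finrank k (k ∙ v) = 1 := finrank_span_singleton hv
    rw [h, finrank_top, hV] at h1
    omega

theorem det_of_charpoly (hV : finrank k V = 2) {t : Module.End k V} {χ χ' : k}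
    (hcp : LinearMap.charpoly t = (X - C χ) * (X - C χ')) : LinearMap.det t = χ * χ' := by
  rw [LinearMap.det_eq_sign_charpoly_coeff, hV, hcp, mul_coeff_zero]
  simp

/-- **Eigenbasis.** -/
theorem exists_eigenbasis (hV : finrank k V = 2) {p : ℕ} (t f : Module.End k V)
    (hrel : f * t = t ^ p * f)
    (ht : ∃ α β : k, LinearMap.charpoly t = (X - C α) * (X - C β))
    (hf : ∃ α β : k, LinearMap.charpoly f = (X - C α) * (X - C β))
    {N : ℕ} (hN : (N : k) ≠ 0) (htN : t ^ N = 1)
    (hirr : ∀ U : Submodule k V, (∀ x ∈ U, t x ∈ U) → (∀ x ∈ U, f x ∈ U) → U = ⊥ ∨ U = ⊤) :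
    ∃ (b : Basis (Fin 2) k V) (χ χ' β γ : k), χ ≠ χ' ∧ β ≠ 0 ∧ γ ≠ 0 ∧
      t (b 0) = χ • b 0 ∧ t (b 1) = χ' • b 1 ∧ f (b 0) = β • b 1 ∧ f (b 1) = γ • b 0 ∧
      χ' = χ ^ p ∧ χ = χ' ^ p ∧ LinearMap.det t = χ * χ' := by
  classical
  obtain ⟨χ, χ', hcp⟩ := ht
  obtain ⟨hev1, hev2⟩ := hasEigenvalue_of_charpoly hcp
  -- `χ ≠ χ'`
  have hne : χ ≠ χ' := by
    rintro rfl
    have hts : t = χ • 1 := eq_smul_one_of_sq_of_pow hN htN hcp
    obtain ⟨φ1, φ2, hfcp⟩ := hf
    obtain ⟨v, hv⟩ := (hasEigenvalue_of_charpoly hfcp).1.exists_hasEigenvector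
    have hv0 : v ≠ 0 := hv.2
    have hfv : f v = φ1 • v := hv.apply_eq_smul
    rcases hirr (k ∙ v) (fun x hx => by
        rw [hts]
        simpa using Submodule.smul_mem _ χ hx)
      (fun x hx => by
        obtain ⟨c, rfl⟩ := Submodule.mem_span_singleton.mp hx
        rw [map_smul, hfv]
        exact Submodule.smul_mem _ _ (Submodule.smul_mem _ _ (Submodule.mem_span_singleton_self v)))
      with h | h
    · exact (span_singleton_ne hV hv0).1 h
    · exact (span_singleton_ne hV hv0).2 h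
  obtain ⟨v₁, hv₁⟩ := hev1.exists_hasEigenvector
  obtain ⟨v₂, hv₂⟩ := hev2.exists_hasEigenvector
  have hli : LinearIndependent k ![v₁, v₂] := by
    refine Module.End.eigenvectors_linearIndependent' t ![χ, χ'] ?_ ![v₁, v₂] ?_
    · intro i j hij
      fin_cases i <;> fin_cases j <;> simp_all
    · intro i
      fin_cases i
      · exact hv₁
      · exact hv₂
  let b : Basis (Fin 2) k V := basisOfLinearIndependentOfCardEqFinrank hli (by simp [hV])
  have hb0 : b 0 = v₁ := by simp [b]
  have hb1 : b 1 = v₂ := by simp [b]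
  have ht0 : t (b 0) = χ • b 0 := by rw [hb0]; exact hv₁.apply_eq_smul
  have ht1 : t (b 1) = χ' • b 1 := by rw [hb1]; exact hv₂.apply_eq_smul
  have htp0 : (t ^ p) (b 0) = χ ^ p • b 0 := by rw [hb0]; exact hv₁.pow_apply p
  have htp1 : (t ^ p) (b 1) = χ' ^ p • b 1 := by rw [hb1]; exact hv₂.pow_apply p
  -- expansions of `f (b i)`
  have hexp : ∀ x : V, x = b.repr x 0 • b 0 + b.repr x 1 • b 1 := fun x => by
    conv_lhs => rw [← b.sum_repr x, Fin.sum_univ_two]
  set α := b.repr (f (b 0)) 0 with hα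
  set β := b.repr (f (b 0)) 1 with hβ
  set γ := b.repr (f (b 1)) 0 with hγ
  set δ := b.repr (f (b 1)) 1 with hδ
  have hf0 : f (b 0) = α • b 0 + β • b 1 := hexp _
  have hf1 : f (b 1) = γ • b 0 + δ • b 1 := hexp _
  -- coefficient comparison
  have hcoef : ∀ {c₀ c₁ e₀ e₁ : k}, c₀ • b 0 + c₁ • b 1 = e₀ • b 0 + e₁ • b 1 →
      c₀ = e₀ ∧ c₁ = e₁ := by
    intro c₀ c₁ e₀ e₁ h
    have h0 := congrArg (fun x => b.repr x 0) h
    have h1 := congrArg (fun x => b.repr x 1) h
    simp only [map_add, map_smul, Basis.repr_self, Finsupp.add_apply, Finsupp.smul_apply,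
      Finsupp.single_apply, smul_eq_mul] at h0 h1
    constructor
    · simpa using h0
    · simpa using h1
  -- the relation on `b 0`, `b 1`
  have hr0 : (χ * α) • b 0 + (χ * β) • b 1 = (α * χ ^ p) • b 0 + (β * χ' ^ p) • b 1 := by
    have h := congrArg (fun g : Module.End k V => g (b 0)) hrel
    simp only [Module.End.mul_apply] at h
    rw [ht0, map_smul, hf0, map_add, map_smul, map_smul, htp0, htp1] at h
    rw [smul_add, smul_smul, smul_smul, smul_smul, smul_smul] at h
    exact h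
  have hr1 : (χ' * γ) • b 0 + (χ' * δ) • b 1 = (γ * χ ^ p) • b 0 + (δ * χ' ^ p) • b 1 := by
    have h := congrArg (fun g : Module.End k V => g (b 1)) hrel
    simp only [Module.End.mul_apply] at h
    rw [ht1, map_smul, hf1, map_add, map_smul, map_smul, htp0, htp1] at h
    rw [smul_add, smul_smul, smul_smul, smul_smul, smul_smul] at h
    exact h
  obtain ⟨e1, e2⟩ := hcoef hr0
  obtain ⟨e3, e4⟩ := hcoef hr1
  have hbne0 : b 0 ≠ 0 := b.ne_zero 0
  have hbne1 : b 1 ≠ 0 := b.ne_zero 1
  -- irreducibility: `β ≠ 0`, `γ ≠ 0`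
  have hβ0 : β ≠ 0 := by
    intro h0
    rcases hirr (k ∙ b 0) (fun x hx => by
        obtain ⟨c, rfl⟩ := Submodule.mem_span_singleton.mp hx
        rw [map_smul, ht0]
        exact Submodule.smul_mem _ _ (Submodule.smul_mem _ _ (Submodule.mem_span_singleton_self _)))
      (fun x hx => by
        obtain ⟨c, rfl⟩ := Submodule.mem_span_singleton.mp hx
        rw [map_smul, hf0, h0, zero_smul, add_zero]
        exact Submodule.smul_mem _ _ (Submodule.smul_mem _ _ (Submodule.mem_span_singleton_self _)))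
      with h | h
    · exact (span_singleton_ne hV hbne0).1 h
    · exact (span_singleton_ne hV hbne0).2 h
  have hγ0 : γ ≠ 0 := by
    intro h0
    rcases hirr (k ∙ b 1) (fun x hx => by
        obtain ⟨c, rfl⟩ := Submodule.mem_span_singleton.mp hx
        rw [map_smul, ht1]
        exact Submodule.smul_mem _ _ (Submodule.smul_mem _ _ (Submodule.mem_span_singleton_self _)))
      (fun x hx => by
        obtain ⟨c, rfl⟩ := Submodule.mem_span_singleton.mp hx
        rw [map_smul, hf1, h0, zero_smul, zero_add]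
        exact Submodule.smul_mem _ _ (Submodule.smul_mem _ _ (Submodule.mem_span_singleton_self _)))
      with h | h
    · exact (span_singleton_ne hV hbne1).1 h
    · exact (span_singleton_ne hV hbne1).2 h
  have hχ : χ = χ' ^ p := by
    have : β * χ = β * χ' ^ p := by rw [← e2, mul_comm]
    exact mul_left_cancel₀ hβ0 this
  have hχ' : χ' = χ ^ p := by
    have : γ * χ' = γ * χ ^ p := by rw [← e3, mul_comm]
    exact mul_left_cancel₀ hγ0 this
  have hα0 : α = 0 := by
    have : α * (χ - χ') = 0 := by rw [mul_sub, hχ', ← e1]; ring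
    rcases mul_eq_zero.mp this with h | h
    · exact h
    · exact absurd (sub_eq_zero.mp h) hne
  have hδ0 : δ = 0 := by
    have : δ * (χ' - χ) = 0 := by
      have e5 : χ' * δ = δ * χ := by rw [e4, ← hχ]
      linear_combination e5
    rcases mul_eq_zero.mp this with h | h
    · exact h
    · exact absurd (sub_eq_zero.mp h).symm hne
  refine ⟨b, χ, χ', β, γ, hne, hβ0, hγ0, ht0, ht1, ?_, ?_, hχ', hχ, det_of_charpoly hV hcp⟩
  · rw [hf0, hα0, zero_smul, zero_add]
  · rw [hf1, hδ0, zero_smul, add_zero]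

/-- Powers of a diagonal endomorphism with `χ' = χ ^ p`. -/
theorem pow_eq_one_iff_of_eigenbasis (b : Basis (Fin 2) k V) {χ χ' : k} {p : ℕ}
    {t : Module.End k V} (ht0 : t (b 0) = χ • b 0) (ht1 : t (b 1) = χ' • b 1)
    (hχ' : χ' = χ ^ p) (j : ℕ) : t ^ j = 1 ↔ χ ^ j = 1 := by
  have hp0 : ∀ j : ℕ, (t ^ j) (b 0) = χ ^ j • b 0 := by
    intro j
    induction j with
    | zero => simp
    | succ j ih => rw [pow_succ, Module.End.mul_apply, ht0, map_smul, ih, smul_smul, pow_succ,
        mul_comm]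
  have hp1 : ∀ j : ℕ, (t ^ j) (b 1) = χ' ^ j • b 1 := by
    intro j
    induction j with
    | zero => simp
    | succ j ih => rw [pow_succ, Module.End.mul_apply, ht1, map_smul, ih, smul_smul, pow_succ,
        mul_comm]
  constructor
  · intro h
    have h0 := hp0 j
    rw [h, Module.End.one_apply] at h0
    have h1 : (χ ^ j - 1) • b 0 = 0 := by rw [sub_smul, one_smul, ← h0, sub_self]
    rcases smul_eq_zero.mp h1 with h2 | h2
    · exact sub_eq_zero.mp h2
    · exact absurd h2 (b.ne_zero 0)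
  · intro h
    refine b.ext fun i => ?_
    fin_cases i
    · simpa [h] using hp0 j
    · have h' : χ' ^ j = 1 := by rw [hχ', ← pow_mul, mul_comm, pow_mul, h, one_pow]
      simpa [h'] using hp1 j

/-- **Coordinates of `Ad t`, `Ad f`** on `End V` in an eigenbasis of `t` in which `f` is
antidiagonal. -/
theorem ad_coords (b : Basis (Fin 2) k V) {χ χ' β γ : k} (hβ : β ≠ 0) (hγ : γ ≠ 0)
    {t t' f f' : Module.End k V} (ht't : t' * t = 1) (hf'f : f' * f = 1)
    (ht0 : t (b 0) = χ • b 0) (ht1 : t (b 1) = χ' • b 1)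
    (hf0 : f (b 0) = β • b 1) (hf1 : f (b 1) = γ • b 0) :
    ∃ ℓ₁ ℓp ℓm : Module.End k V →ₗ[k] k,
      (∀ z, LinearMap.trace k V z = 0 → ℓ₁ z = 0 → ℓp z = 0 → ℓm z = 0 → z = 0) ∧
      (∀ z, ℓ₁ (t * z * t') = ℓ₁ z) ∧
      (∀ z, ℓp (t * z * t') = (χ * χ'⁻¹) * ℓp z) ∧
      (∀ z, ℓm (t * z * t') = (χ * χ'⁻¹)⁻¹ * ℓm z) ∧
      (∀ z, LinearMap.trace k V z = 0 → ℓ₁ (f * z * f') = - ℓ₁ z) ∧
      (∀ z, ℓp (f * z * f') = (γ * β⁻¹) * ℓm z) ∧
      (∀ z, ℓm (f * z * f') = (β * γ⁻¹) * ℓp z) := by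
  classical
  have hχ : χ ≠ 0 := by
    rintro rfl
    have h := congrArg (fun g : Module.End k V => g (b 0)) ht't
    simp only [Module.End.mul_apply, Module.End.one_apply] at h
    rw [ht0, zero_smul, map_zero] at h
    exact b.ne_zero 0 h.symm
  have hχ' : χ' ≠ 0 := by
    rintro rfl
    have h := congrArg (fun g : Module.End k V => g (b 1)) ht't
    simp only [Module.End.mul_apply, Module.End.one_apply] at h
    rw [ht1, zero_smul, map_zero] at h
    exact b.ne_zero 1 h.symm
  -- inverses on the basis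
  have ht'0 : t' (b 0) = χ⁻¹ • b 0 := by
    have h := congrArg (fun g : Module.End k V => g (b 0)) ht't
    simp only [Module.End.mul_apply, Module.End.one_apply] at h
    rw [ht0, map_smul] at h
    calc t' (b 0) = χ⁻¹ • (χ • t' (b 0)) := by rw [smul_smul, inv_mul_cancel₀ hχ, one_smul]
      _ = χ⁻¹ • b 0 := by rw [h]
  have ht'1 : t' (b 1) = χ'⁻¹ • b 1 := by
    have h := congrArg (fun g : Module.End k V => g (b 1)) ht't
    simp only [Module.End.mul_apply, Module.End.one_apply] at h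
    rw [ht1, map_smul] at h
    calc t' (b 1) = χ'⁻¹ • (χ' • t' (b 1)) := by rw [smul_smul, inv_mul_cancel₀ hχ', one_smul]
      _ = χ'⁻¹ • b 1 := by rw [h]
  have hf'1 : f' (b 1) = β⁻¹ • b 0 := by
    have h := congrArg (fun g : Module.End k V => g (b 0)) hf'f
    simp only [Module.End.mul_apply, Module.End.one_apply] at h
    rw [hf0, map_smul] at h
    rw [← h, smul_smul, inv_mul_cancel₀ hβ, one_smul]
  have hf'0 : f' (b 0) = γ⁻¹ • b 1 := by
    have h := congrArg (fun g : Module.End k V => g (b 1)) hf'f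
    simp only [Module.End.mul_apply, Module.End.one_apply] at h
    rw [hf1, map_smul] at h
    rw [← h, smul_smul, inv_mul_cancel₀ hγ, one_smul]
  -- expansions
  have hexp : ∀ x : V, x = b.repr x 0 • b 0 + b.repr x 1 • b 1 := fun x => by
    conv_lhs => rw [← b.sum_repr x, Fin.sum_univ_two]
  have hrepr0 : ∀ c₀ c₁ : k, b.repr (c₀ • b 0 + c₁ • b 1) 0 = c₀ := fun c₀ c₁ => by
    simp
  have hrepr1 : ∀ c₀ c₁ : k, b.repr (c₀ • b 0 + c₁ • b 1) 1 = c₁ := fun c₀ c₁ => by
    simp
  have htr : ∀ z : Module.End k V,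
      LinearMap.trace k V z = b.repr (z (b 0)) 0 + b.repr (z (b 1)) 1 := fun z => by
    rw [LinearMap.trace_eq_matrix_trace k b z, Matrix.trace_fin_two, LinearMap.toMatrix_apply,
      LinearMap.toMatrix_apply]
  -- conjugates on the basis
  have hAt0 : ∀ z : Module.End k V, (t * z * t') (b 0) =
      (b.repr (z (b 0)) 0) • b 0 + (χ⁻¹ * χ' * b.repr (z (b 0)) 1) • b 1 := fun z => by
    rw [Module.End.mul_apply, Module.End.mul_apply, ht'0, map_smul, map_smul]
    conv_lhs => rw [hexp (z (b 0))]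
    rw [map_add, map_smul, map_smul, ht0, ht1, smul_add, smul_smul, smul_smul, smul_smul,
      smul_smul]
    congr 2
    · field_simp
    · ring
  have hAt1 : ∀ z : Module.End k V, (t * z * t') (b 1) =
      (χ'⁻¹ * χ * b.repr (z (b 1)) 0) • b 0 + (b.repr (z (b 1)) 1) • b 1 := fun z => by
    rw [Module.End.mul_apply, Module.End.mul_apply, ht'1, map_smul, map_smul]
    conv_lhs => rw [hexp (z (b 1))]
    rw [map_add, map_smul, map_smul, ht0, ht1, smul_add, smul_smul, smul_smul, smul_smul,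
      smul_smul]
    congr 2
    · ring
    · field_simp
  have hAf0 : ∀ z : Module.End k V, (f * z * f') (b 0) =
      (b.repr (z (b 1)) 1) • b 0 + (γ⁻¹ * β * b.repr (z (b 1)) 0) • b 1 := fun z => by
    rw [Module.End.mul_apply, Module.End.mul_apply, hf'0, map_smul, map_smul]
    conv_lhs => rw [hexp (z (b 1))]
    rw [map_add, map_smul, map_smul, hf0, hf1, smul_add, smul_smul, smul_smul, smul_smul,
      smul_smul, add_comm]
    congr 2
    · field_simp
    · ring
  have hAf1 : ∀ z : Module.End k V, (f * z * f') (b 1) =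
      (β⁻¹ * γ * b.repr (z (b 0)) 1) • b 0 + (b.repr (z (b 0)) 0) • b 1 := fun z => by
    rw [Module.End.mul_apply, Module.End.mul_apply, hf'1, map_smul, map_smul]
    conv_lhs => rw [hexp (z (b 0))]
    rw [map_add, map_smul, map_smul, hf0, hf1, smul_add, smul_smul, smul_smul, smul_smul,
      smul_smul, add_comm]
    congr 2
    · ring
    · field_simp
  refine ⟨(b.coord 0).comp (LinearMap.applyₗ (b 0)), (b.coord 0).comp (LinearMap.applyₗ (b 1)),
    (b.coord 1).comp (LinearMap.applyₗ (b 0)), ?_, ?_, ?_, ?_, ?_, ?_, ?_⟩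
  · intro z hz h1 hp hm
    simp only [LinearMap.comp_apply, LinearMap.applyₗ_apply_apply, Basis.coord_apply] at h1 hp hm
    have h2 : b.repr (z (b 1)) 1 = 0 := by
      have := htr z
      rw [hz, h1, zero_add] at this
      exact this.symm
    refine b.ext fun i => ?_
    fin_cases i
    · have := hexp (z (b 0))
      rw [h1, hm, zero_smul, zero_smul, add_zero] at this
      simpa using this
    · have := hexp (z (b 1))
      rw [hp, h2, zero_smul, zero_smul, add_zero] at this
      simpa using this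
  · intro z
    simp only [LinearMap.comp_apply, LinearMap.applyₗ_apply_apply, Basis.coord_apply]
    rw [hAt0, hrepr0]
  · intro z
    simp only [LinearMap.comp_apply, LinearMap.applyₗ_apply_apply, Basis.coord_apply]
    rw [hAt1, hrepr0]
    ring
  · intro z
    simp only [LinearMap.comp_apply, LinearMap.applyₗ_apply_apply, Basis.coord_apply]
    rw [hAt0, hrepr1, mul_inv, inv_inv]
  · intro z hz
    simp only [LinearMap.comp_apply, LinearMap.applyₗ_apply_apply, Basis.coord_apply]
    rw [hAf0, hrepr0]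
    have := htr z
    rw [hz] at this
    linear_combination -this
  · intro z
    simp only [LinearMap.comp_apply, LinearMap.applyₗ_apply_apply, Basis.coord_apply]
    rw [hAf1, hrepr0]
    ring
  · intro z
    simp only [LinearMap.comp_apply, LinearMap.applyₗ_apply_apply, Basis.coord_apply]
    rw [hAf0, hrepr1]
    ring

end LA

section Arith

/-- Arithmetic of the orders: if `n / gcd (n, p + 1) = p - 1` then `n = (p - 1) m` with
`m = n / gcd (n, p - 1)`, `m ∣ p + 1` and `(p + 1) / m` odd. -/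
theorem order_arith {p n : ℕ} (hp : p.Prime) (hp2 : p ≠ 2) (hn : 0 < n)
    (h1 : n / Nat.gcd n (p + 1) = p - 1) :
    n = (p - 1) * (n / Nat.gcd n (p - 1)) ∧ (n / Nat.gcd n (p - 1)) ∣ p + 1 ∧
      Odd ((p + 1) / (n / Nat.gcd n (p - 1))) := by
  have hp3 : 3 ≤ p := by
    have := hp.two_le
    omega
  have hpm : 0 < p - 1 := by omega
  set g := Nat.gcd n (p + 1) with hg
  have hgn : g ∣ n := Nat.gcd_dvd_left _ _
  have hgp : g ∣ p + 1 := Nat.gcd_dvd_right _ _
  have hg0 : 0 < g := Nat.gcd_pos_of_pos_left _ hn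
  have hn' : n = (p - 1) * g := by
    have := Nat.div_mul_cancel hgn
    rw [h1] at this
    exact this.symm
  have hgcd : Nat.gcd n (p - 1) = p - 1 := Nat.gcd_eq_right ⟨g, hn'⟩
  have hm : n / Nat.gcd n (p - 1) = g := by
    rw [hgcd, hn', Nat.mul_div_cancel_left _ hpm]
  rw [hm]
  refine ⟨hn', hgp, ?_⟩
  obtain ⟨c, hc⟩ := hgp
  have hcdiv : (p + 1) / g = c := by rw [hc, Nat.mul_div_cancel_left _ hg0]
  rw [hcdiv]
  have h2 : Nat.gcd (p - 1) c = 1 := by
    have h3 : g = g * Nat.gcd (p - 1) c := by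
      conv_lhs => rw [hg, hn', hc, mul_comm (p - 1) g, Nat.gcd_mul_left]
    have h4 : g * 1 = g * Nat.gcd (p - 1) c := by rw [mul_one]; exact h3
    exact (Nat.eq_of_mul_eq_mul_left hg0 h4).symm
  rw [← Nat.not_even_iff_odd]
  intro hce
  have hpe : Even (p - 1) := by
    rcases hp.eq_two_or_odd' with h | h
    · exact absurd h hp2
    · exact Nat.Odd.sub_odd h odd_one
  have : 2 ∣ Nat.gcd (p - 1) c := Nat.dvd_gcd hpe.two_dvd hce.two_dvd
  rw [h2] at this
  omega

/-- Order bookkeeping in a group: if `(x ^ (p + 1)) ^ j = 1 ↔ p - 1 ∣ j` for all `j`, then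
`ord x = (p - 1) m` where `m = ord (x * (x ^ p)⁻¹)`, `m ∣ p + 1`, `(p + 1) / m` is odd. -/
theorem order_shape {G : Type*} [CommGroup G] [Finite G] {p : ℕ} (hp : p.Prime) (hp2 : p ≠ 2)
    (x : G) (hdet : ∀ j : ℕ, (x ^ (p + 1)) ^ j = 1 ↔ p - 1 ∣ j) :
    orderOf x = (p - 1) * orderOf (x * (x ^ p)⁻¹) ∧ orderOf (x * (x ^ p)⁻¹) ∣ p + 1 ∧
      Odd ((p + 1) / orderOf (x * (x ^ p)⁻¹)) := by
  have hpm : p - 1 ≠ 0 := by
    have := hp.two_le
    omega
  have h1 : orderOf (x ^ (p + 1)) = p - 1 := by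
    apply Nat.dvd_antisymm
    · exact orderOf_dvd_of_pow_eq_one ((hdet (p - 1)).mpr dvd_rfl)
    · exact (hdet _).mp (pow_orderOf_eq_one _)
  have hn : 0 < orderOf x := orderOf_pos x
  rw [orderOf_pow' x (Nat.succ_ne_zero p)] at h1
  have h2 : orderOf (x * (x ^ p)⁻¹) = orderOf x / Nat.gcd (orderOf x) (p - 1) := by
    have e : x * (x ^ p)⁻¹ = (x ^ (p - 1))⁻¹ := by
      have hp1 : p = (p - 1) + 1 := by omega
      conv_lhs => rw [hp1, pow_succ, mul_inv, ← mul_assoc]
      rw [mul_comm x, mul_assoc, mul_inv_cancel, mul_one]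
    rw [e, orderOf_inv, orderOf_pow' x hpm]
  rw [h2]
  exact order_arith hp hp2 hn h1

end Arith

end Fermat.Agent.S56.H384
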