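import Fermat.Agent.S56.FL.ShapeSpec
import Fermat.Agent.S56.H384.ShapeLA

/-!
# S56 / W-FLAT-SS, leaf RCShape (helper384)

`rcShape : FL.RCShapeStatement` (VERBATIM): the supersingular structure theorem for `ρ` and `Ad ρ`.

Proof.  `ρ` kills the wild inertia group `Γ₁` (a `p`-group, while the image of `ρ` has order prime
to `p`), so `ρ(Γ)` is generated by `t = ρ τ₀` and `f = ρ φ`, with `f t = t ^ p f`.  `t` has order
prime to `p` and split characteristic polynomial; by irreducibility it is not scalar, so it is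
`diag(χ, χ')` in a basis `v₁, v₂`, and `f` swaps the two eigenlines (`ShapeLA.exists_eigenbasis`):
`χ' = χ ^ p`, `χ = χ' ^ p`.  `det t = χ ^ (p + 1)` has exact order `p - 1` (`hdet` + `hcyc`), whence
the arithmetic of the orders (`ShapeLA.order_shape`).  The count is `|Γ₀| = |ρ(Γ₀)| · |ker ρ ∩ Γ₀|`
with `ρ(Γ₀) = ⟨t⟩`.
-/

set_option autoImplicit false
set_option linter.style.haveILetI false

namespace Fermat.Agent.S56.H384

open Fermat.Agent.S56.FL Polynomial IsLocalRing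

theorem rcShape : RCShapeStatement := by
  intro d htame hpg τ₀ φ μ hT hcyc
  classical
  obtain ⟨hτ₀, hgen0, -, -, -, hgenφ, hfrob⟩ := hT
  haveI : Fact d.p.Prime := ⟨d.hp⟩
  haveI := d.hchar
  have hp0 : d.p ≠ 0 := d.hp.ne_zero
  have hinv' : ∀ g : d.Γ, d.ρ g⁻¹ * d.ρ g = 1 := fun g => by
    rw [← map_mul, inv_mul_cancel, map_one]
  -- the index of `ker ρ`
  have hpow_idx : ∀ g : d.Γ, d.ρ g ^ d.ρ.ker.index = 1 := fun g => by
    rw [← map_pow]
    exact MonoidHom.mem_ker.mp (Subgroup.pow_index_mem _ g)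
  have hidxk : ((d.ρ.ker.index : ℕ) : d.k) ≠ 0 := fun h =>
    htame ((CharP.cast_eq_zero_iff d.k d.p _).mp h)
  -- wild inertia acts trivially
  have hwild : ∀ γ ∈ ramGroup d.B d.Γ 1, d.ρ γ = 1 := by
    intro γ hγ
    obtain ⟨a, ha⟩ := hpg ⟨γ, hγ⟩
    have ha' : γ ^ d.p ^ a = 1 := by
      have := congrArg (fun x : ramGroup d.B d.Γ 1 => (x : d.Γ)) ha
      simpa using this
    have h1 : d.ρ γ ^ (d.p ^ a) = 1 := by rw [← map_pow, ha', map_one]
    have hcop : Nat.gcd (d.p ^ a) d.ρ.ker.index = 1 :=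
      Nat.Coprime.pow_left a ((Nat.Prime.coprime_iff_not_dvd d.hp).mpr htame)
    have h2 := pow_gcd_eq_one.mpr ⟨h1, hpow_idx γ⟩
    rwa [hcop, pow_one] at h2
  -- the relation `f t = t ^ p f`
  have hrel : d.ρ φ * d.ρ τ₀ = d.ρ τ₀ ^ d.p * d.ρ φ := by
    have hw := hwild _ hfrob
    have e : φ * τ₀ = (φ * τ₀ * φ⁻¹ * (τ₀ ^ d.p)⁻¹) * τ₀ ^ d.p * φ := by group
    rw [← map_mul, e, map_mul, map_mul, hw, one_mul, map_pow]
  -- every `ρ σ` is `t ^ i * f ^ j`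
  have hgen : ∀ σ : d.Γ, ∃ i j : ℕ, d.ρ σ = d.ρ τ₀ ^ i * d.ρ φ ^ j := by
    intro σ
    obtain ⟨j, hj⟩ := hgenφ σ
    obtain ⟨i, hi⟩ := hgen0 _ hj
    refine ⟨i, j, ?_⟩
    have hw := hwild _ hi
    have e : σ = (σ * (φ ^ j)⁻¹ * (τ₀ ^ i)⁻¹) * τ₀ ^ i * φ ^ j := by group
    conv_lhs => rw [e]
    rw [map_mul, map_mul, hw, one_mul, map_pow, map_pow]
  have hgenI : ∀ σ ∈ ramGroup d.B d.Γ 0, ∃ i : ℕ, d.ρ σ = d.ρ τ₀ ^ i := by
    intro σ hσ
    obtain ⟨i, hi⟩ := hgen0 σ hσ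
    refine ⟨i, ?_⟩
    have hw := hwild _ hi
    have e : σ = (σ * (τ₀ ^ i)⁻¹) * τ₀ ^ i := by group
    conv_lhs => rw [e]
    rw [map_mul, hw, one_mul, map_pow]
  -- irreducibility for the pair `(t, f)`
  have hirr : ∀ U : Submodule d.k d.V, (∀ x ∈ U, d.ρ τ₀ x ∈ U) → (∀ x ∈ U, d.ρ φ x ∈ U) →
      U = ⊥ ∨ U = ⊤ := by
    intro U hUt hUf
    refine d.hirr U fun σ x hx => ?_
    obtain ⟨i, j, hij⟩ := hgen σ
    rw [hij, Module.End.mul_apply]
    have hpowt : ∀ (n : ℕ) (y : d.V), y ∈ U → (d.ρ τ₀ ^ n) y ∈ U := by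
      intro n
      induction n with
      | zero => intro y hy; simpa using hy
      | succ n ih =>
        intro y hy
        rw [pow_succ, Module.End.mul_apply]
        exact ih _ (hUt y hy)
    have hpowf : ∀ (n : ℕ) (y : d.V), y ∈ U → (d.ρ φ ^ n) y ∈ U := by
      intro n
      induction n with
      | zero => intro y hy; simpa using hy
      | succ n ih =>
        intro y hy
        rw [pow_succ, Module.End.mul_apply]
        exact ih _ (hUf y hy)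
    exact hpowt i _ (hpowf j x hx)
  -- eigenbasis
  obtain ⟨b, χ, χ', β, γ, hne, hβ, hγ, ht0, ht1, hf0, hf1, hχ', hχ, hdett⟩ :=
    exists_eigenbasis d.hV (d.ρ τ₀) (d.ρ φ) hrel (d.hsplit τ₀) (d.hsplit φ) hidxk
      (hpow_idx τ₀) hirr
  obtain ⟨ℓ₁, ℓp, ℓm, c1, c2, c3, c4, c5, c6, c7⟩ :=
    ad_coords b hβ hγ (hinv' τ₀) (hinv' φ) ht0 ht1 hf0 hf1
  have hχ0 : χ ≠ 0 := by
    rintro rfl
    apply hne
    rw [hχ', zero_pow hp0]
  -- orders
  set x : d.kˣ := Units.mk0 χ hχ0 with hx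
  have hxval : ∀ j : ℕ, ((x ^ j : d.kˣ) : d.k) = χ ^ j := fun j => by
    rw [Units.val_pow_eq_pow_val, hx, Units.val_mk0]
  have hxpow : ∀ j : ℕ, x ^ j = 1 ↔ χ ^ j = 1 := fun j => by
    rw [← Units.val_inj, hxval, Units.val_one]
  have hdet : ∀ j : ℕ, (x ^ (d.p + 1)) ^ j = 1 ↔ d.p - 1 ∣ j := by
    intro j
    haveI : NeZero d.p := ⟨hp0⟩
    obtain ⟨a, -, ha⟩ := d.hζ.eq_pow_of_pow_eq_one (ξ := τ₀ ^ j • d.ζ)
      (by rw [← smul_pow', d.hζ.pow_eq_one, smul_one])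
    have hda := d.hdet (τ₀ ^ j) a ha.symm
    rw [map_pow, map_pow, hdett] at hda
    rw [← hcyc j a ha.symm, ← pow_mul, hxpow, pow_mul, pow_succ, ← hχ', mul_comm χ' χ, hda]
    rw [← Nat.cast_one (R := d.k), CharP.natCast_eq_natCast d.k d.p]
  obtain ⟨hord, hmdvd, hodd⟩ := order_shape d.hp d.hp2 x hdet
  have hψval : ((x * (x ^ d.p)⁻¹ : d.kˣ) : d.k) = χ * χ'⁻¹ := by
    rw [Units.val_mul, Units.val_inv_eq_inv_val, hxval, ← hχ', hx, Units.val_mk0]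
  have hC9 : ∀ j : ℕ, d.ρ (τ₀ ^ j) = 1 ↔
      (d.p - 1) * orderOf (x * (x ^ d.p)⁻¹) ∣ j := by
    intro j
    rw [map_pow, pow_eq_one_iff_of_eigenbasis b ht0 ht1 hχ' j, ← hord,
      orderOf_dvd_iff_pow_eq_one, hxpow]
  refine ⟨ℓ₁, ℓp, ℓm, χ * χ'⁻¹, γ * β⁻¹, β * γ⁻¹, orderOf (x * (x ^ d.p)⁻¹),
    c1, c2, c3, c4, c5, c6, c7, hmdvd, hodd, hC9, ?_, ?_⟩
  · intro j
    rw [orderOf_dvd_iff_pow_eq_one, ← Units.val_inj, Units.val_pow_eq_pow_val, hψval,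
      Units.val_one]
  · -- the count
    set I : Subgroup d.Γ := ramGroup d.B d.Γ 0 with hI
    let ρu : d.Γ →* (Module.End d.k d.V)ˣ := d.ρ.toHomUnits
    let ρI : I →* (Module.End d.k d.V)ˣ := ρu.comp I.subtype
    have hρu : ∀ g : d.Γ, ((ρu g : (Module.End d.k d.V)ˣ) : Module.End d.k d.V) = d.ρ g :=
      fun g => rfl
    have hρu1 : ∀ g : d.Γ, ρu g = 1 ↔ d.ρ g = 1 := fun g => by
      rw [← Units.val_inj, hρu, Units.val_one]
    have h1 := Subgroup.card_mul_index ρI.ker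
    rw [Subgroup.index_ker] at h1
    have hrange : ρI.range = Subgroup.zpowers (ρu τ₀) := by
      ext y
      constructor
      · rintro ⟨⟨σ, hσ⟩, rfl⟩
        obtain ⟨i, hi⟩ := hgenI σ hσ
        refine ⟨(i : ℤ), ?_⟩
        apply Units.ext
        simp only [zpow_natCast, Units.val_pow_eq_pow_val]
        rw [hρu]
        exact hi.symm
      · rintro ⟨z, rfl⟩
        exact ⟨(⟨τ₀, hτ₀⟩ : I) ^ z, by simp [ρI, map_zpow]⟩
    have hordu : orderOf (ρu τ₀) = (d.p - 1) * orderOf (x * (x ^ d.p)⁻¹) := by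
      rw [← hord]
      rw [orderOf_eq_orderOf_iff]
      intro j
      rw [← map_pow, hρu1, hxpow, map_pow, pow_eq_one_iff_of_eigenbasis b ht0 ht1 hχ' j]
    have hcardrange : Nat.card ρI.range = (d.p - 1) * orderOf (x * (x ^ d.p)⁻¹) := by
      rw [hrange, Nat.card_zpowers, hordu]
    have hker : ρI.ker = (d.ρ.ker ⊓ I).subgroupOf I := by
      ext ⟨σ, hσ⟩
      rw [MonoidHom.mem_ker, Subgroup.mem_subgroupOf, Subgroup.mem_inf, MonoidHom.mem_ker]
      simp only [ρI, MonoidHom.comp_apply, Subgroup.coe_subtype]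
      rw [hρu1]
      exact ⟨fun h => ⟨h, hσ⟩, fun h => h.1⟩
    have hcardker : Nat.card ρI.ker = Nat.card (d.ρ.ker ⊓ I : Subgroup d.Γ) := by
      rw [hker]
      exact Nat.card_congr (Subgroup.subgroupOfEquivOfLe inf_le_right).toEquiv
    rw [hcardrange, hcardker] at h1
    rw [← h1, mul_comm]

end Fermat.Agent.S56.H384
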