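import Fermat.Agent.S56.H384.ApproxVal

/-!
# S56 / W2-SS piece A5 (helper384): finite commutative algebras over an algebraically closed
valued field

* `exists_algHom_of_isRoot_charpoly` : every root of the characteristic polynomial of
  multiplication by `a` is the value at `a` of a character;
* `IntC` : elements with integral coordinates in a basis, and the approximate Cayley-Hamilton
  estimate `approx_prod` / `exists_root_near` for an approximately multiplicative functional.
-/

set_option autoImplicit false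
set_option linter.unusedSectionVars false
set_option linter.style.haveILetI false

namespace Fermat.Agent.S56.H384

open Polynomial

section Char

variable {Ω : Type*} [Field Ω] [IsAlgClosed Ω] {A : Type*} [CommRing A] [Algebra Ω A]
  [Module.Finite Ω A]

/-- Every root of the characteristic polynomial of multiplication by `a` in a finite
commutative algebra over an algebraically closed field is `χ a` for a character `χ`. -/
theorem exists_algHom_of_isRoot_charpoly (a : A) {lam : Ω}
    (h : (LinearMap.mulLeft Ω a).charpoly.IsRoot lam) : ∃ χ : A →ₐ[Ω] Ω, χ a = lam := by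
  have hev := (Module.End.hasEigenvalue_iff_isRoot_charpoly (LinearMap.mulLeft Ω a) lam).mpr h
  obtain ⟨y, hy⟩ := hev.exists_hasEigenvector
  have hy1 : a * y = lam • y := hy.apply_eq_smul
  have hy0 : y ≠ 0 := hy.2
  have hnu : a - algebraMap Ω A lam ∈ nonunits A := by
    intro hu
    apply hy0
    have h0 : (a - algebraMap Ω A lam) * y = 0 := by
      rw [sub_mul, hy1, Algebra.smul_def, sub_self]
    exact (hu.mul_right_eq_zero).mp h0
  obtain ⟨m, hm, ham⟩ := exists_max_ideal_of_mem_nonunits hnu
  letI := Ideal.Quotient.field m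
  have hbij : Function.Bijective (algebraMap Ω (A ⧸ m)) :=
    IsAlgClosed.algebraMap_bijective_of_isIntegral
  let e : Ω ≃ₐ[Ω] (A ⧸ m) := AlgEquiv.ofBijective (Algebra.ofId Ω (A ⧸ m)) hbij
  refine ⟨(e.symm : (A ⧸ m) →ₐ[Ω] Ω).comp (Ideal.Quotient.mkₐ Ω m), ?_⟩
  have h0 : ((e.symm : (A ⧸ m) →ₐ[Ω] Ω).comp (Ideal.Quotient.mkₐ Ω m))
      (a - algebraMap Ω A lam) = 0 := by
    have : (Ideal.Quotient.mkₐ Ω m) (a - algebraMap Ω A lam) = 0 :=
      Ideal.Quotient.eq_zero_iff_mem.mpr ham
    rw [AlgHom.comp_apply, this, map_zero]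
  rw [map_sub, AlgHom.commutes, sub_eq_zero] at h0
  simpa using h0

end Char

section Approx

variable {Ω : Type*} [Field Ω] {Γ : Type*} [LinearOrderedCommGroupWithZero Γ] (v : Valuation Ω Γ)
variable {A : Type*} [CommRing A] [Algebra Ω A] {ι : Type*} [Fintype ι]
  (B : Module.Basis ι Ω A)

/-- Elements of `A` with `v`-integral coordinates in the basis `B`. -/
def IntC (a : A) : Prop := ∀ i, v (B.repr a i) ≤ 1

variable {v B}

theorem IntC.zero : IntC v B 0 := fun i => by simp

theorem IntC.add {a a' : A} (ha : IntC v B a) (ha' : IntC v B a') : IntC v B (a + a') :=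
  fun i => by
    rw [map_add, Finsupp.add_apply]
    exact v.map_add_le (ha i) (ha' i)

theorem IntC.sub {a a' : A} (ha : IntC v B a) (ha' : IntC v B a') : IntC v B (a - a') :=
  fun i => by
    rw [map_sub, Finsupp.sub_apply]
    exact v.map_sub_le (ha i) (ha' i)

theorem IntC.smul {s : Ω} (hs : v s ≤ 1) {a : A} (ha : IntC v B a) : IntC v B (s • a) :=
  fun i => by
    rw [map_smul, Finsupp.smul_apply, smul_eq_mul, map_mul]
    exact mul_le_one' hs (ha i)

theorem IntC.sum {κ : Type*} (s : Finset κ) (g : κ → A) (hg : ∀ k ∈ s, IntC v B (g k)) :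
    IntC v B (∑ k ∈ s, g k) := fun i => by
  rw [map_sum, Finsupp.coe_finsetSum, Finset.sum_apply]
  exact v.map_sum_le fun k hk => hg k hk i

theorem mul_eq_sum_sum (a a' : A) :
    a * a' = ∑ i, ∑ j, (B.repr a i * B.repr a' j) • (B i * B j) := by
  conv_lhs => rw [← B.sum_repr a, ← B.sum_repr a']
  rw [Finset.sum_mul_sum]
  refine Finset.sum_congr rfl fun i _ => Finset.sum_congr rfl fun j _ => ?_
  rw [smul_mul_smul_comm]

theorem IntC.mul (hBmul : ∀ i j, IntC v B (B i * B j)) {a a' : A} (ha : IntC v B a)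
    (ha' : IntC v B a') : IntC v B (a * a') := by
  rw [mul_eq_sum_sum (B := B) a a']
  refine IntC.sum _ _ fun i _ => IntC.sum _ _ fun j _ => IntC.smul ?_ (hBmul i j)
  rw [map_mul]
  exact mul_le_one' (ha i) (ha' j)

variable (φ : A →ₗ[Ω] Ω) {μ : Γ}

theorem apply_eq_sum (a : A) : φ a = ∑ i, B.repr a i * φ (B i) := by
  conv_lhs => rw [← B.sum_repr a]
  rw [map_sum]
  refine Finset.sum_congr rfl fun i _ => ?_
  rw [map_smul, smul_eq_mul]

theorem IntC.val_apply_le (hφ : ∀ i, v (φ (B i)) ≤ 1) {a : A} (ha : IntC v B a) :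
    v (φ a) ≤ 1 := by
  rw [apply_eq_sum (B := B) φ a]
  refine v.map_sum_le fun i _ => ?_
  rw [map_mul]
  exact mul_le_one' (ha i) (hφ i)

/-- Approximate multiplicativity on the basis extends to the integral lattice. -/
theorem IntC.approx_mul (hmul : ∀ i j, v (φ (B i * B j) - φ (B i) * φ (B j)) ≤ μ)
    {a a' : A} (ha : IntC v B a) (ha' : IntC v B a') :
    v (φ (a * a') - φ a * φ a') ≤ μ := by
  have e : φ (a * a') - φ a * φ a' =
      ∑ i, ∑ j, (B.repr a i * B.repr a' j) * (φ (B i * B j) - φ (B i) * φ (B j)) := by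
    rw [mul_eq_sum_sum (B := B) a a', apply_eq_sum (B := B) φ a, apply_eq_sum (B := B) φ a',
      Finset.sum_mul_sum, map_sum, ← Finset.sum_sub_distrib]
    refine Finset.sum_congr rfl fun i _ => ?_
    rw [map_sum, ← Finset.sum_sub_distrib]
    refine Finset.sum_congr rfl fun j _ => ?_
    rw [map_smul, smul_eq_mul]
    ring
  rw [e]
  refine v.map_sum_le fun i _ => v.map_sum_le fun j _ => ?_
  rw [map_mul, map_mul]
  exact mul_le_of_le_one_of_le (mul_le_one' (ha i) (ha' j)) (hmul i j)

/-- The approximate Cayley-Hamilton estimate: for integral `a` and integral scalars `lam`,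
`φ (∏ (a - lam)) ≈ ∏ (φ a - lam)` up to `μ`. -/
theorem IntC.approx_prod (h1 : IntC v B 1) (hBmul : ∀ i j, IntC v B (B i * B j))
    (hφ : ∀ i, v (φ (B i)) ≤ 1) (hone : v (φ 1 - 1) ≤ μ)
    (hmul : ∀ i j, v (φ (B i * B j) - φ (B i) * φ (B j)) ≤ μ)
    {a : A} (ha : IntC v B a) (s : Multiset Ω) (hs : ∀ lam ∈ s, v lam ≤ 1) :
    IntC v B (s.map fun lam => a - algebraMap Ω A lam).prod ∧
      v (s.map fun lam => φ a - lam).prod ≤ 1 ∧
      v (φ (s.map fun lam => a - algebraMap Ω A lam).prod - (s.map fun lam => φ a - lam).prod)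
        ≤ μ := by
  induction s using Multiset.induction_on with
  | empty => simpa using ⟨h1, hone⟩
  | cons lam s ih =>
    obtain ⟨ihP, ihp, ihd⟩ := ih fun l hl => hs l (Multiset.mem_cons_of_mem hl)
    have hlam : v lam ≤ 1 := hs lam (Multiset.mem_cons_self _ _)
    have hal : IntC v B (a - algebraMap Ω A lam) := by
      rw [Algebra.algebraMap_eq_smul_one]
      exact ha.sub (IntC.smul hlam h1)
    have hφa : v (φ a) ≤ 1 := ha.val_apply_le φ hφ
    have hφal : v (φ (a - algebraMap Ω A lam)) ≤ 1 := hal.val_apply_le φ hφ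
    simp only [Multiset.map_cons, Multiset.prod_cons]
    set P := (s.map fun lam => a - algebraMap Ω A lam).prod with hP
    set p := (s.map fun lam => φ a - lam).prod with hp
    refine ⟨hal.mul hBmul ihP, ?_, ?_⟩
    · rw [map_mul]
      exact mul_le_one' (v.map_sub_le hφa hlam) ihp
    · have e : φ ((a - algebraMap Ω A lam) * P) - (φ a - lam) * p =
          (φ ((a - algebraMap Ω A lam) * P) - φ (a - algebraMap Ω A lam) * φ P) +
            (φ (a - algebraMap Ω A lam) * (φ P - p) + (-(lam * (φ 1 - 1))) * p) := by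
        have : φ (a - algebraMap Ω A lam) = φ a - lam * φ 1 := by
          rw [map_sub, Algebra.algebraMap_eq_smul_one, map_smul, smul_eq_mul]
        rw [this]
        ring
      rw [e]
      refine v.map_add_le (hal.approx_mul φ hmul ihP) (v.map_add_le ?_ ?_)
      · rw [map_mul]
        exact mul_le_of_le_one_of_le hφal ihd
      · rw [map_mul, Valuation.map_neg, map_mul, mul_comm]
        exact mul_le_of_le_one_of_le ihp (mul_le_of_le_one_of_le hlam hone)

/-- For integral `a` some root `lam` of the characteristic polynomial of multiplication by `a`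
has `v (φ a - lam) < γ`, provided the defect `μ` is `< γ ^ rank` and all roots are integral. -/
theorem IntC.exists_root_near [IsAlgClosed Ω] [Module.Finite Ω A] (h1 : IntC v B 1)
    (hBmul : ∀ i j, IntC v B (B i * B j))
    (hφ : ∀ i, v (φ (B i)) ≤ 1) (hone : v (φ 1 - 1) ≤ μ)
    (hmul : ∀ i j, v (φ (B i * B j) - φ (B i) * φ (B j)) ≤ μ)
    {γ : Γ} (hγ : γ ≤ 1) (hμ : μ < γ ^ Fintype.card ι)
    {a : A} (ha : IntC v B a)
    (hroots : ∀ lam ∈ (LinearMap.mulLeft Ω a).charpoly.roots, v lam ≤ 1) :
    ∃ lam ∈ (LinearMap.mulLeft Ω a).charpoly.roots, v (φ a - lam) < γ := by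
  set s := (LinearMap.mulLeft Ω a).charpoly.roots with hs
  have hsplit : (LinearMap.mulLeft Ω a).charpoly.Splits := IsAlgClosed.splits _
  have hcp : (LinearMap.mulLeft Ω a).charpoly = (s.map (X - C ·)).prod :=
    hsplit.eq_prod_roots_of_monic (LinearMap.charpoly_monic _)
  have hzero : (s.map fun lam => a - algebraMap Ω A lam).prod = 0 := by
    have h0 : aeval (LinearMap.mulLeft Ω a) (LinearMap.mulLeft Ω a).charpoly = 0 :=
      LinearMap.aeval_self_charpoly _
    have h2 : aeval (Algebra.lmul Ω A a) (LinearMap.mulLeft Ω a).charpoly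
        = Algebra.lmul Ω A (aeval a (LinearMap.mulLeft Ω a).charpoly) :=
      Polynomial.aeval_algHom_apply (Algebra.lmul Ω A) a _
    have h3 : aeval a (LinearMap.mulLeft Ω a).charpoly = 0 := by
      have h4 : Algebra.lmul Ω A (aeval a (LinearMap.mulLeft Ω a).charpoly) 1 = 0 := by
        rw [← h2]
        have : (Algebra.lmul Ω A a) = LinearMap.mulLeft Ω a := rfl
        rw [this, h0]
        rfl
      simpa using h4
    rw [hcp, map_multiset_prod, Multiset.map_map] at h3
    simpa using h3
  obtain ⟨-, -, hd⟩ := IntC.approx_prod φ h1 hBmul hφ hone hmul ha s hroots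
  rw [hzero, map_zero, zero_sub, Valuation.map_neg] at hd
  by_contra hcon
  push Not at hcon
  have hcard : Multiset.card s ≤ Fintype.card ι := by
    have := Polynomial.card_roots' (LinearMap.mulLeft Ω a).charpoly
    rwa [LinearMap.charpoly_natDegree, Module.finrank_eq_card_basis B] at this
  have hge : γ ^ Multiset.card s ≤ v (s.map fun lam => φ a - lam).prod := by
    rw [map_multiset_prod, Multiset.map_map]
    have := Multiset.pow_card_le_prod (s := s.map (fun lam => v (φ a - lam))) (a := γ)
      (by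
        intro x hx
        obtain ⟨lam, hl, rfl⟩ := Multiset.mem_map.mp hx
        exact hcon lam hl)
    simpa using this
  have : γ ^ Fintype.card ι ≤ μ :=
    (pow_le_pow_right_of_le_one' hγ hcard).trans (hge.trans hd)
  exact absurd hμ (not_lt.mpr this)

end Approx

end Fermat.Agent.S56.H384
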