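import Mathlib

/-!
# S56 / W2-SS piece A5 (helper384): valuation-theoretic tools for `exists_point_near`

* `val_le_one_of_isIntegral` : elements integral over a ring with `v`-integral image are
  `v`-integral;
* `exists_unit_diff_finset` : in an algebraically closed valued field there are arbitrarily large
  finite sets of integral elements with pairwise unit differences;
* `exists_avoid` : avoidance lemma (a finite family of "proper" conditions `v (φ x c) ≤ γ` on an
  integral lattice can be avoided simultaneously).
-/

set_option autoImplicit false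

namespace Fermat.Agent.S56.H384

open Polynomial

section Val

variable {Ω : Type*} [Field Ω] {Γ : Type*} [LinearOrderedCommGroupWithZero Γ] (v : Valuation Ω Γ)

/-- Elements integral over a ring whose image is `v`-integral are `v`-integral. -/
theorem val_le_one_of_isIntegral {R : Type*} [CommRing R] [Algebra R Ω]
    (hR : ∀ r : R, v (algebraMap R Ω r) ≤ 1) {y : Ω} (hy : IsIntegral R y) : v y ≤ 1 := by
  obtain ⟨p, hp, hpy⟩ := hy
  let φ : R →+* v.integer := (algebraMap R Ω).codRestrict v.integer (fun r => hR r)
  have hy' : IsIntegral v.integer y := by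
    refine ⟨p.map φ, hp.map φ, ?_⟩
    rw [Polynomial.eval₂_map]
    exact hpy
  exact (Valuation.integer.integers v).mem_of_integral hy'

/-- A product of two elements `≤ 1` which equals `1` forces both factors to be `1`. -/
theorem eq_one_of_mul_eq_one_of_le {a b : Γ} (ha : a ≤ 1) (hb : b ≤ 1) (h : a * b = 1) :
    a = 1 ∧ b = 1 := by
  constructor
  · refine le_antisymm ha ?_
    calc (1 : Γ) = a * b := h.symm
      _ ≤ a * 1 := by gcongr
      _ = a := mul_one a
  · refine le_antisymm hb ?_
    calc (1 : Γ) = a * b := h.symm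
      _ ≤ 1 * b := by gcongr
      _ = b := one_mul b

/-- In an algebraically closed valued field there are arbitrarily large finite sets of integral
elements with pairwise unit differences. -/
theorem exists_unit_diff_finset [IsAlgClosed Ω] (k : ℕ) :
    ∃ S : Finset Ω, S.card = k ∧ (∀ s ∈ S, v s ≤ 1) ∧
      ∀ s ∈ S, ∀ t ∈ S, s ≠ t → v (s - t) = 1 := by
  classical
  induction k with
  | zero => exact ⟨∅, rfl, by simp, by simp⟩
  | succ k ih =>
    obtain ⟨S, hcard, hint, hdiff⟩ := ih
    set Q : Polynomial Ω := X * ∏ s ∈ S, (X - C s) with hQ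
    have hQm : Q.Monic := monic_X.mul (monic_prod_of_monic _ _ fun s _ => monic_X_sub_C s)
    have hQd : 0 < Q.degree := by
      have h1 : Q.natDegree = 1 + (∏ s ∈ S, (X - C s)).natDegree := by
        rw [hQ, (monic_X (R := Ω)).natDegree_mul
          (monic_prod_of_monic _ _ fun s _ => monic_X_sub_C s), natDegree_X]
      exact natDegree_pos_iff_degree_pos.mp (by omega)
    obtain ⟨t, ht⟩ := IsAlgClosed.exists_root (Q - C 1) (by rw [degree_sub_C hQd]; exact hQd.ne')
    have ht' : t * ∏ s ∈ S, (t - s) = 1 := by
      have := ht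
      simp only [IsRoot, hQ, eval_sub, eval_mul, eval_X, eval_prod, eval_C, sub_eq_zero] at this
      exact this
    have hvt : v t * ∏ s ∈ S, v (t - s) = 1 := by
      rw [← map_prod, ← map_mul, ht', map_one]
    have htint : v t ≤ 1 := by
      by_contra hlt
      push Not at hlt
      have h1 : ∀ s ∈ S, 1 ≤ v (t - s) := fun s hs => by
        rw [Valuation.map_sub_eq_of_lt_left v ((hint s hs).trans_lt hlt)]
        exact hlt.le
      have h2 : (1 : Γ) ≤ ∏ s ∈ S, v (t - s) := Finset.one_le_prod' h1
      have h3 : v t ≤ v t * ∏ s ∈ S, v (t - s) := by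
        calc v t = v t * 1 := (mul_one _).symm
          _ ≤ v t * ∏ s ∈ S, v (t - s) := by gcongr
      rw [hvt] at h3
      exact absurd hlt (not_lt.mpr h3)
    have hle : ∀ s ∈ S, v (t - s) ≤ 1 := fun s hs => Valuation.map_sub_le v htint (hint s hs)
    have hprod : ∏ s ∈ S, v (t - s) = 1 :=
      (eq_one_of_mul_eq_one_of_le htint (Finset.prod_le_one' hle) hvt).2
    have hts : ∀ s ∈ S, v (t - s) = 1 := (Finset.prod_eq_one_iff_of_le_one' hle).mp hprod
    have htS : t ∉ S := by
      intro h
      have := hts t h
      simp at this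
    refine ⟨insert t S, by rw [Finset.card_insert_of_notMem htS, hcard], ?_, ?_⟩
    · intro s hs
      rcases Finset.mem_insert.mp hs with rfl | hs
      · exact htint
      · exact hint s hs
    · intro s hs s' hs' hne
      rcases Finset.mem_insert.mp hs with h1 | h1 <;>
        rcases Finset.mem_insert.mp hs' with h2 | h2
      · exact absurd (h1.trans h2.symm) hne
      · rw [h1]; exact hts s' h2
      · rw [h2, Valuation.map_sub_swap]; exact hts s h1
      · exact hdiff s h1 s' h2 hne

/-- **Avoidance lemma.** Let `M` be a lattice (closed under addition and integral scalars) in an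
`Ω`-vector space and `φ x` linear functionals.  If for each `x ∈ T` some element of `M` has
`γ < v (φ x c)`, then a single element of `M` works for all `x ∈ T`. -/
theorem exists_avoid [IsAlgClosed Ω] {V : Type*} [AddCommGroup V] [Module Ω V] (M : V → Prop)
    (hM0 : M 0) (hMadd : ∀ x y, M x → M y → M (x + y))
    (hMsmul : ∀ (s : Ω) x, v s ≤ 1 → M x → M (s • x))
    {X : Type*} (φ : X → V →ₗ[Ω] Ω) (γ : Γ) (T : Finset X)
    (hbad : ∀ x ∈ T, ∃ c, M c ∧ γ < v (φ x c)) :
    ∃ c, M c ∧ ∀ x ∈ T, γ < v (φ x c) := by
  classical
  induction T using Finset.induction_on with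
  | empty => exact ⟨0, hM0, by simp⟩
  | insert x0 T hx0 ih =>
    obtain ⟨c1, hc1M, hc1⟩ := ih (fun x hx => hbad x (Finset.mem_insert_of_mem hx))
    obtain ⟨c0, hc0M, hc0⟩ := hbad x0 (Finset.mem_insert_self _ _)
    by_cases h1 : γ < v (φ x0 c1)
    · refine ⟨c1, hc1M, fun x hx => ?_⟩
      rcases Finset.mem_insert.mp hx with rfl | hxT
      · exact h1
      · exact hc1 x hxT
    · push Not at h1
      obtain ⟨S, hScard, hSint, hSdiff⟩ := exists_unit_diff_finset v (T.card + 1)
      let Bad : X → Finset Ω := fun x => S.filter (fun s => v (φ x (c0 + s • c1)) ≤ γ)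
      have hBad1 : ∀ x ∈ T, (Bad x).card ≤ 1 := by
        intro x hx
        rw [Finset.card_le_one]
        intro s hs s' hs'
        by_contra hne
        simp only [Bad, Finset.mem_filter] at hs hs'
        have hunit := hSdiff s hs.1 s' hs'.1 hne
        have h2 : v (φ x ((s - s') • c1)) ≤ γ := by
          have e : (s - s') • c1 = (c0 + s • c1) - (c0 + s' • c1) := by rw [sub_smul]; abel
          rw [e, map_sub]
          exact Valuation.map_sub_le v hs.2 hs'.2
        rw [map_smul, smul_eq_mul, map_mul, hunit, one_mul] at h2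
        exact absurd h2 (not_le.mpr (hc1 x hx))
      have hcard : (T.biUnion Bad).card < S.card := by
        calc (T.biUnion Bad).card ≤ ∑ x ∈ T, (Bad x).card := Finset.card_biUnion_le
          _ ≤ ∑ x ∈ T, 1 := Finset.sum_le_sum hBad1
          _ = T.card := by simp
          _ < S.card := by omega
      obtain ⟨s, hsS, hsn⟩ := Finset.exists_mem_notMem_of_card_lt_card hcard
      refine ⟨c0 + s • c1, hMadd _ _ hc0M (hMsmul s c1 (hSint s hsS) hc1M), ?_⟩
      intro x hx
      rcases Finset.mem_insert.mp hx with rfl | hxT
      · rw [map_add, map_smul, smul_eq_mul]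
        have h2 : v (s * φ x c1) ≤ γ := by
          rw [map_mul]
          exact mul_le_of_le_one_of_le (hSint s hsS) h1
        rw [Valuation.map_add_eq_of_lt_left v (h2.trans_lt hc0)]
        exact hc0
      · by_contra hle
        push Not at hle
        exact hsn (Finset.mem_biUnion.mpr ⟨x, hxT, Finset.mem_filter.mpr ⟨hsS, hle⟩⟩)

end Val

end Fermat.Agent.S56.H384
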