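import Fermat.Agent.S56.FL.RamSpec

/-!
# S56 / W-FLAT-SS, leaf RCInfl (helper384): inflation-restriction by averaging

`rcInfl : FL.RCInflStatement` (VERBATIM): if the image of `ρ` has order prime to `p`, an
`Ad ρ`-cocycle vanishing on `ker ρ` is a coboundary.  Proof: `c` is constant on the cosets of
`ker ρ`; average over `Γ ⧸ ker ρ`.
-/

set_option autoImplicit false
set_option linter.style.haveILetI false

namespace Fermat.Agent.S56.H384

open Fermat.Agent.S56.FL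

theorem rcInfl : RCInflStatement := by
  intro p _ Γ _ _ k _ _ V _ _ ρ hp c hc hker
  classical
  haveI : Fintype (Γ ⧸ ρ.ker) := Fintype.ofFinite _
  -- `ρ σ * ρ σ⁻¹ = 1`
  have hinv : ∀ σ : Γ, ρ σ * ρ σ⁻¹ = 1 := fun σ => by rw [← map_mul, mul_inv_cancel, map_one]
  have hinv' : ∀ σ : Γ, ρ σ⁻¹ * ρ σ = 1 := fun σ => by rw [← map_mul, inv_mul_cancel, map_one]
  -- `c` is constant on left cosets of the kernel
  have hconst : ∀ σ τ : Γ, σ⁻¹ * τ ∈ ρ.ker → c σ = c τ := by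
    intro σ τ h
    have h1 : ρ (σ⁻¹ * τ) = 1 := MonoidHom.mem_ker.mp h
    have h2 : c (σ * (σ⁻¹ * τ)) = c σ + ρ σ * c (σ⁻¹ * τ) * ρ σ⁻¹ := hc σ (σ⁻¹ * τ)
    rw [mul_inv_cancel_left, hker _ h1, mul_zero, zero_mul, add_zero] at h2
    exact h2.symm
  let C : Γ ⧸ ρ.ker → Module.End k V :=
    Quotient.lift c (fun σ τ h => hconst σ τ (QuotientGroup.leftRel_apply.mp h))
  have hC : ∀ σ : Γ, C (σ : Γ ⧸ ρ.ker) = c σ := fun σ => rfl
  -- the index is invertible in `k`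
  have hn : ((Fintype.card (Γ ⧸ ρ.ker) : ℕ) : k) ≠ 0 := by
    intro h0
    apply hp
    have := (CharP.cast_eq_zero_iff k p _).mp h0
    rwa [Subgroup.index, Nat.card_eq_fintype_card]
  set n : k := ((Fintype.card (Γ ⧸ ρ.ker) : ℕ) : k) with hndef
  set S : Module.End k V := ∑ q : Γ ⧸ ρ.ker, C q with hS
  -- key identity: `ρ σ * S * ρ σ⁻¹ = S - n • c σ`
  have hkey : ∀ σ : Γ, ρ σ * S * ρ σ⁻¹ = S - n • c σ := by
    intro σ
    have h1 : ∀ q : Γ ⧸ ρ.ker, ρ σ * C q * ρ σ⁻¹ = C ((σ : Γ ⧸ ρ.ker) * q) - c σ := by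
      intro q
      induction q using QuotientGroup.induction_on with
      | H τ =>
        rw [hC, ← QuotientGroup.mk_mul, hC, hc σ τ]
        abel
    rw [hS, Finset.mul_sum, Finset.sum_mul]
    rw [Finset.sum_congr rfl fun q _ => h1 q, Finset.sum_sub_distrib]
    have h2 : ∑ q : Γ ⧸ ρ.ker, C ((σ : Γ ⧸ ρ.ker) * q) = ∑ q : Γ ⧸ ρ.ker, C q :=
      Fintype.sum_equiv (Equiv.mulLeft (σ : Γ ⧸ ρ.ker)) _ _ fun q => rfl
    rw [h2, Finset.sum_const, Finset.card_univ, hndef, Nat.cast_smul_eq_nsmul]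
  refine ⟨-(n⁻¹ • S), fun σ => ?_⟩
  have h3 : ρ σ * -(n⁻¹ • S) * ρ σ⁻¹ = -(n⁻¹ • (ρ σ * S * ρ σ⁻¹)) := by
    rw [mul_neg, neg_mul, mul_smul_comm, smul_mul_assoc]
  rw [h3, hkey σ, smul_sub, smul_smul, inv_mul_cancel₀ hn, one_smul]
  abel

end Fermat.Agent.S56.H384
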